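import Mathlib.NumberTheory.Chebyshev
import Mathlib.Analysis.Complex.ExponentialBounds
import Mathlib.NumberTheory.ArithmeticFunction.Misc

/-!
# The maximal orders of `ω` and of the divisor function

For additive weights `f a ≤ C a` the primes of `n` above `y = (log n) ^ (1 - δ)` contribute at most
`C log n / log y` and those below only `y O (log log n)`; the primorials show the constant is right,
as `θ x ≤ π x log x` and `θ x ≥ x / 2`.
-/

set_option autoImplicit false

noncomputable section

namespace FA.MaximalOrder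

open Finset Filter Real
open scoped Topology Chebyshev

/-- `ω n log log n / log n`. -/
def omegaRatio (n : ℕ) : ℝ := (#n.primeFactors : ℝ) * log (log n) / log n

/-- `log d n log log n / log n`. -/
def divisorRatio (n : ℕ) : ℝ := log (#n.divisors : ℝ) * log (log n) / log n

theorem tendsto_log_natCast : Tendsto (fun n : ℕ => log n) atTop atTop :=
  Real.tendsto_log_atTop.comp tendsto_natCast_atTop_atTop

theorem log_eq_sum_factorization {n : ℕ} (hn : n ≠ 0) :
    log n = ∑ p ∈ n.primeFactors, (n.factorization p : ℝ) * log p := by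
  have h : (n : ℝ) = ∏ p ∈ n.primeFactors, (p : ℝ) ^ n.factorization p := by
    exact_mod_cast congrArg (Nat.cast : ℕ → ℝ) (Nat.prod_factorization_pow_eq_self hn).symm
  rw [h, Real.log_prod fun p hp => pow_ne_zero _
    (Nat.cast_ne_zero.2 (Nat.prime_of_mem_primeFactors hp).ne_zero)]
  exact sum_congr rfl fun p _ => by rw [Real.log_pow]

theorem sum_weight_le {f : ℕ → ℝ} {C B y : ℝ} (hC : 0 ≤ C) (hf : ∀ a, f a ≤ C * a) (hy : 1 < y)
    {n : ℕ} (hn : n ≠ 0) (hB0 : 0 ≤ B) (hB : ∀ p ∈ n.primeFactors, f (n.factorization p) ≤ B) :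
    ∑ p ∈ n.primeFactors, f (n.factorization p) ≤ C * log n / log y + y * B := by
  classical
  rw [← sum_filter_add_sum_filter_not n.primeFactors fun p : ℕ => y < (p : ℝ)]
  refine add_le_add ?_ ?_
  · rw [le_div_iff₀ (Real.log_pos hy), sum_mul, log_eq_sum_factorization hn, mul_sum]
    refine (sum_le_sum (g := fun p : ℕ => C * ((n.factorization p : ℝ) * log p))
        fun p hp => ?_).trans
      (sum_le_sum_of_subset_of_nonneg (filter_subset _ _) fun p _ _ =>
        mul_nonneg hC (mul_nonneg (Nat.cast_nonneg _) (Real.log_natCast_nonneg p)))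
    rw [← mul_assoc]
    exact mul_le_mul (hf _) (Real.log_le_log (by linarith) (mem_filter.1 hp).2.le)
      (Real.log_pos hy).le (mul_nonneg hC (Nat.cast_nonneg _))
  · refine (sum_le_card_nsmul _ _ B fun p hp => hB p (mem_filter.1 hp).1).trans ?_
    rw [nsmul_eq_mul]
    refine mul_le_mul_of_nonneg_right ?_ hB0
    refine le_trans (Nat.cast_le.2 (card_le_card (t := Icc 1 ⌊y⌋₊) fun p hp => ?_))
      (by simpa using Nat.floor_le (show 0 ≤ y by linarith))
    rw [mem_filter, not_lt] at hp
    exact mem_Icc.2 ⟨(Nat.prime_of_mem_primeFactors hp.1).one_le, Nat.le_floor hp.2⟩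

theorem eventually_sum_weight_le {f : ℕ → ℝ} {C b : ℝ} (hC : 0 ≤ C) (hf : ∀ a, f a ≤ C * a)
    (hlog : ∀ a : ℕ, f a ≤ log ((a : ℝ) + 1) + 1) (hb : C < b) :
    ∀ᶠ n : ℕ in atTop,
      (∑ p ∈ n.primeFactors, f (n.factorization p)) * log (log n) / log n ≤ b := by
  obtain ⟨δ, hδ0, hδ1, hδb⟩ : ∃ δ : ℝ, 0 < δ ∧ δ < 1 ∧ C / (1 - δ) < b := by
    have h : ContinuousAt (fun δ : ℝ => C / (1 - δ)) 0 := by fun_prop (disch := norm_num)
    obtain ⟨δ, ⟨h1, h2⟩, h3⟩ := (((h.tendsto.eventually_lt_const (by simpa using hb)).and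
      (eventually_lt_nhds one_pos)).filter_mono (nhdsWithin_le_nhds (s := Set.Ioi 0))
        |>.and self_mem_nhdsWithin).exists
    exact ⟨δ, h3, h2, h1⟩
  have hlim : Tendsto (fun L : ℝ => C / (1 - δ) + 4 * (log L ^ 2 / L ^ δ)) atTop
      (𝓝 (C / (1 - δ))) := by
    have h := (isLittleO_log_rpow_rpow_atTop (2 : ℝ) hδ0).tendsto_div_nhds_zero
    simp only [Real.rpow_two] at h
    simpa using (h.const_mul 4).const_add (C / (1 - δ))
  filter_upwards [tendsto_log_natCast.eventually (hlim.eventually (eventually_le_nhds hδb)),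
    tendsto_log_natCast.eventually_ge_atTop 8, eventually_ge_atTop 1] with n hn hL hn1
  refine le_trans ?_ hn
  obtain ⟨L, hLd⟩ : ∃ L, L = log (n : ℝ) := ⟨_, rfl⟩
  rw [← hLd] at hL ⊢
  obtain ⟨l, hld⟩ : ∃ l, l = log L := ⟨_, rfl⟩
  rw [← hld]
  have hl : 1 < l := by
    rw [hld, Real.lt_log_iff_exp_lt (by linarith)]
    linarith [Real.exp_one_lt_three]
  have hLδ : 0 < L ^ δ := Real.rpow_pos_of_pos (by linarith) δ
  obtain ⟨y, hyd⟩ : ∃ y, y = L ^ (1 - δ) := ⟨_, rfl⟩
  have hy : 1 < y := hyd ▸ Real.one_lt_rpow (by linarith) (by linarith)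
  have hly : log y = (1 - δ) * l := by rw [hyd, hld, Real.log_rpow (by linarith)]
  have hB : ∀ p ∈ n.primeFactors, f (n.factorization p) ≤ 4 * l := by
    intro p hp
    refine (hlog _).trans ?_
    have hp2 : (2 : ℝ) ≤ p := Nat.ofNat_le_cast.2 (Nat.prime_of_mem_primeFactors hp).two_le
    have h1 : (n.factorization p : ℝ) * log 2 ≤ L := by
      rw [hLd, log_eq_sum_factorization (by omega : n ≠ 0)]
      exact (mul_le_mul_of_nonneg_left (Real.log_le_log two_pos hp2) (Nat.cast_nonneg _)).trans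
        (single_le_sum (f := fun q : ℕ => (n.factorization q : ℝ) * log q)
          (fun q _ => mul_nonneg (Nat.cast_nonneg _) (Real.log_natCast_nonneg q)) hp)
    have h2 : (n.factorization p : ℝ) + 1 ≤ L ^ 2 := by
      nlinarith [Real.log_two_gt_d9]
    have h3 := Real.log_le_log (by positivity) h2
    rw [Real.log_pow, ← hld] at h3
    push_cast at h3
    linarith
  have hs := sum_weight_le hC hf hy (show n ≠ 0 by omega) (by linarith) hB
  rw [hly, ← hLd] at hs
  rw [div_le_iff₀ (by linarith)]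
  refine (mul_le_mul_of_nonneg_right hs (by linarith)).trans (le_of_eq ?_)
  rw [hyd, Real.rpow_sub (by linarith), Real.rpow_one]
  have : (1 : ℝ) - δ ≠ 0 := by linarith
  field_simp

theorem eventually_omegaRatio_le {b : ℝ} (hb : 1 < b) :
    ∀ᶠ n : ℕ in atTop, omegaRatio n ≤ b := by
  filter_upwards [eventually_sum_weight_le (f := fun a => min (a : ℝ) 1) zero_le_one
    (fun a => by rw [one_mul]; exact min_le_left _ _)
    (fun a => (min_le_right _ _).trans (le_add_of_nonneg_left (Real.log_nonneg (by simp)))) hb,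
    eventually_ne_atTop 0] with n hn hn0
  refine le_of_eq_of_le ?_ hn
  rw [omegaRatio, card_eq_sum_ones, Nat.cast_sum, sum_congr rfl fun p hp => ?_]
  rw [Nat.cast_one, min_eq_right (Nat.one_le_cast.2 ?_)]
  exact (Nat.prime_of_mem_primeFactors hp).factorization_pos_of_dvd hn0
    (Nat.dvd_of_mem_primeFactors hp)

theorem log_card_divisors {n : ℕ} (hn : n ≠ 0) :
    log (#n.divisors : ℝ) = ∑ p ∈ n.primeFactors, log ((n.factorization p : ℝ) + 1) := by
  rw [Nat.card_divisors hn, Nat.cast_prod, Real.log_prod fun p _ => by positivity]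
  exact sum_congr rfl fun p _ => by push_cast; rfl

theorem log_succ_le (a : ℕ) : log ((a : ℝ) + 1) ≤ log 2 * a := by
  induction a with
  | zero => simp
  | succ a ih =>
    push_cast
    refine (Real.log_le_log (by positivity) (show (a : ℝ) + 1 + 1 ≤ 2 * ((a : ℝ) + 1) by
      linarith [(Nat.cast_nonneg a : (0 : ℝ) ≤ a)])).trans ?_
    rw [Real.log_mul two_ne_zero (by positivity)]
    linarith

/-- **Wigert's upper bound.** -/
theorem eventually_divisorRatio_le {b : ℝ} (hb : log 2 < b) :
    ∀ᶠ n : ℕ in atTop, divisorRatio n ≤ b := by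
  filter_upwards [eventually_sum_weight_le (f := fun a => log ((a : ℝ) + 1))
    (Real.log_nonneg one_le_two) log_succ_le (fun a => le_add_of_nonneg_right zero_le_one) hb,
    eventually_ne_atTop 0] with n hn hn0
  rwa [divisorRatio, log_card_divisors hn0]

/-- The primorials are extreme. -/
theorem frequently_squarefree_le_omegaRatio {a : ℝ} (ha : a < 1) :
    ∃ᶠ n : ℕ in atTop, n ≠ 0 ∧ Squarefree n ∧ a ≤ omegaRatio n := by
  refine (show Tendsto (fun x : ℕ => primorial x) atTop atTop from
    tendsto_atTop_mono (fun _ => le_primorial_self) tendsto_id).frequently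
      (Eventually.frequently ?_)
  have hlim : Tendsto (fun x : ℕ => 1 - log 2 / log x) atTop (𝓝 1) := by
    simpa using (tendsto_log_natCast.const_div_atTop (log 2)).const_sub 1
  have hsmall := (isLittleO_log_rpow_atTop (show (0 : ℝ) < 1 / 4 by norm_num)).bound
    (show (0 : ℝ) < 1 / 100 by norm_num)
  filter_upwards [hlim.eventually (eventually_ge_nhds ha),
    tendsto_natCast_atTop_atTop.eventually hsmall, eventually_ge_atTop 100] with x hx hs hx2
  refine ⟨primorial_ne_zero x, squarefree_primorial x, hx.trans ?_⟩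
  have hx0 : (100 : ℝ) ≤ x := Nat.ofNat_le_cast.2 hx2
  have hlx : 0 < log (x : ℝ) := Real.log_pos (by linarith)
  have hθ : θ (x : ℝ) = log (primorial x) := by
    rw [Chebyshev.theta_eq_log_primorial, Nat.floor_natCast]
  have hπ : (#(primorial x).primeFactors : ℝ) = (Nat.primeCounting x : ℝ) := by
    rw [primeFactors_primorial, Nat.primesLE_card_eq_primeCounting]
  have hge : (x : ℝ) / 2 ≤ θ (x : ℝ) := by
    refine le_trans ?_ (Chebyshev.theta_ge x)
    rw [Real.norm_of_nonneg hlx.le, Real.norm_of_nonneg (by positivity)] at hs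
    obtain ⟨r, hr⟩ : ∃ r, r = (x : ℝ) ^ (1 / 4 : ℝ) := ⟨_, rfl⟩
    have hr4 : r * r = √(x : ℝ) := by
      rw [hr, ← Real.rpow_add (by linarith), Real.sqrt_eq_rpow]
      norm_num
    have hr1 : 1 ≤ r := hr ▸ Real.one_le_rpow (by linarith) (by norm_num)
    rw [← hr] at hs
    have hlog1 : log ((x : ℝ) + 1) ≤ log 2 + log x := by
      rw [← Real.log_mul two_ne_zero (by linarith)]
      exact Real.log_le_log (by linarith) (by linarith)
    have hsx := Real.mul_self_sqrt (show (0 : ℝ) ≤ x by linarith)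
    have hrle : r ≤ √(x : ℝ) := by rw [← hr4]; nlinarith
    nlinarith [mul_le_mul_of_nonneg_left hs (Real.sqrt_nonneg (x : ℝ)),
      mul_le_mul_of_nonneg_left hrle (Real.sqrt_nonneg (x : ℝ)), Real.log_two_gt_d9,
      Real.log_two_lt_d9]
  have hle := Chebyshev.theta_le_pi_mul_log x
  rw [omegaRatio, hπ, ← hθ, le_div_iff₀ (by linarith)]
  have hl : log (x : ℝ) - log 2 ≤ log (θ (x : ℝ)) := by
    rw [← Real.log_div (by linarith) two_ne_zero]
    exact Real.log_le_log (by linarith) hge
  have hl0 : 0 ≤ log (x : ℝ) - log 2 := by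
    linarith [Real.log_le_log two_pos (show (2 : ℝ) ≤ x by linarith)]
  calc (1 - log 2 / log (x : ℝ)) * θ (x : ℝ)
      = (log (x : ℝ) - log 2) * (θ (x : ℝ) / log (x : ℝ)) := by field_simp
    _ ≤ (log (x : ℝ) - log 2) * (Nat.primeCounting x : ℝ) :=
        mul_le_mul_of_nonneg_left ((div_le_iff₀ hlx).2 hle) hl0
    _ ≤ log (θ (x : ℝ)) * (Nat.primeCounting x : ℝ) :=
        mul_le_mul_of_nonneg_right hl (Nat.cast_nonneg _)
    _ = _ := mul_comm _ _

theorem divisorRatio_of_squarefree {n : ℕ} (hn : n ≠ 0) (hsq : Squarefree n) :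
    divisorRatio n = log 2 * omegaRatio n := by
  rw [divisorRatio, omegaRatio, log_card_divisors hn, sum_congr rfl fun p hp => by
    rw [Nat.factorization_eq_one_of_squarefree hsq (Nat.prime_of_mem_primeFactors hp)
      (Nat.dvd_of_mem_primeFactors hp)]]
  rw [sum_const, nsmul_eq_mul, show ((1 : ℕ) : ℝ) + 1 = 2 by norm_num]
  ring

theorem limsup_omegaRatio : limsup omegaRatio atTop = 1 := by
  have hbdd : IsBoundedUnder (· ≤ ·) atTop omegaRatio :=
    ⟨2, eventually_omegaRatio_le one_lt_two⟩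
  have hfr : ∀ {a : ℝ}, a < 1 → ∃ᶠ n : ℕ in atTop, a ≤ omegaRatio n := fun ha =>
    (frequently_squarefree_le_omegaRatio ha).mono fun _ h => h.2.2
  refine le_antisymm (le_of_forall_pos_le_add fun e he => limsup_le_of_le
    (IsCoboundedUnder.of_frequently_ge (hfr zero_lt_one))
    (eventually_omegaRatio_le (by linarith))) ?_
  exact le_of_forall_sub_le fun e he => le_limsup_of_frequently_le (hfr (by linarith)) hbdd

theorem limsup_divisorRatio : limsup divisorRatio atTop = log 2 := by
  have hbdd : IsBoundedUnder (· ≤ ·) atTop divisorRatio :=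
    ⟨log 2 + 1, eventually_divisorRatio_le (lt_add_one _)⟩
  have hl : 0 < log (2 : ℝ) := Real.log_pos one_lt_two
  have hfr : ∀ {a : ℝ}, a < log 2 → ∃ᶠ n : ℕ in atTop, a ≤ divisorRatio n := fun {a} ha =>
    (frequently_squarefree_le_omegaRatio ((div_lt_one hl).2 ha)).mono fun n ⟨hn, hsq, h⟩ => by
      rw [div_le_iff₀ hl, mul_comm] at h
      rwa [divisorRatio_of_squarefree hn hsq]
  refine le_antisymm (le_of_forall_pos_le_add fun e he => limsup_le_of_le
    (IsCoboundedUnder.of_frequently_ge (hfr hl))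
    (eventually_divisorRatio_le (by linarith))) ?_
  exact le_of_forall_sub_le fun e he => le_limsup_of_frequently_le (hfr (by linarith)) hbdd

end FA.MaximalOrder
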